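import Fermat.Agent.MW.Geo.Eval
import Fermat.Agent.S19.Weil.FinDim
import Fermat.Agent.GAL.FF.RH.Ineq

/-!
# MW / GEO : Bertini for a pencil (characteristic zero)

`s, t` without common zero relative to `D` (`min (ord_P s) (ord_P t) = - D P`), `t / s` not constant:
for all but finitely many `c ∈ K` the effective divisor `div (t - c s) + D` is reduced.
-/

set_option autoImplicit false

namespace Fermat.Agent.MW.Geo

open AlgebraicCurve Fermat.Agent.Lib.RR Fermat.Agent.GAL.RED Fermat.Agent.Lib.PlaceEval
open IntermediateField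

variable {K F : Type*} [Field K] [Field F] [Algebra K F] [IsFF K F] [IsAlgClosed K]

/-- for a non constant `x` only finitely many places are multiple zeros of some `x - c`. -/
theorem finite_multiple_zero [CharZero K] (x : F) (hx : x ∉ Set.range (algebraMap K F)) :
    {P : Place K F | ∃ c : K, 2 ≤ P.ord (x - algebraMap K F c)}.Finite := by
  have htr : Transcendental K x := S19.Weil.transcendental_of_not_mem_range hx
  have hfd : FiniteDimensional K⟮x⟯ F := S19.Weil.finiteDimensional_adjoin htr
  have hsep : Algebra.IsSeparable K⟮x⟯ F := S19.Weil.isSeparable_adjoin htr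
  have hFF1 : IsFF K K⟮x⟯ := GAL.FF.isFF_adjoin x htr
  have h1 : {w : Place K F | w.ramificationIndex K⟮x⟯ ≠ 1}.Finite :=
    GAL.FF.finite_ramified (k := K) (F := K⟮x⟯) (F' := F)
  apply h1.subset
  rintro P ⟨c, hc⟩
  have h2 := GAL.FF.ramificationIndex_adjoin_of_pos x htr P c (by omega)
  show P.ramificationIndex K⟮x⟯ ≠ 1
  intro h3
  rw [h3] at h2
  push_cast at h2
  omega

/-- **Bertini for a pencil.** -/
theorem bertini [CharZero K] (D : Divisor K F) (s t : F) (hs : s ≠ 0)
    (hmin : ∀ P : Place K F, min (P.ord s) (P.ord t) = - D P)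
    (hnc : ∀ c : K, t ≠ c • s) :
    {c : K | ¬ ∀ P : Place K F, (divOf (t - c • s) + D : Divisor K F) P ≤ 1}.Finite := by
  have ht : t ≠ 0 := by
    intro h
    exact hnc 0 (by rw [h, zero_smul])
  have hx : t / s ∉ Set.range (algebraMap K F) := by
    rintro ⟨c, hc⟩
    apply hnc c
    rw [Algebra.smul_def, hc, div_mul_cancel₀ _ hs]
  have hfin := finite_multiple_zero (t / s) hx
  apply (hfin.image (fun P => ev P (t / s))).subset
  intro c hc
  simp only [Set.mem_setOf_eq, not_forall, not_le] at hc
  obtain ⟨P, hP⟩ := hc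
  have hne : t - c • s ≠ 0 := sub_ne_zero.2 (hnc c)
  rw [Finsupp.add_apply, divOf_apply] at hP
  have hm := hmin P
  have hsP : P.ord s = - D P := by
    by_contra hcon
    have h1 : P.ord t = - D P := by omega
    have h2 : P.ord t < P.ord s := by omega
    have h3 : P.ord (t - c • s) = P.ord t := by
      rcases eq_or_ne c 0 with rfl | hc0
      · rw [zero_smul, sub_zero]
      · have hcs : c • s ≠ 0 := smul_ne_zero hc0 hs
        rw [sub_eq_add_neg]
        apply ord_add_eq_of_lt P ht (neg_ne_zero.2 hcs)
        rw [ord_neg, Algebra.smul_def,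
          P.ord_mul (by simpa using hc0) hs, ord_algebraMap, zero_add]
        exact h2
    omega
  have hfac : t - c • s = s * (t / s - algebraMap K F c) := by
    rw [Algebra.smul_def]
    field_simp
  have hne2 : t / s - algebraMap K F c ≠ 0 := by
    intro h
    rw [h, mul_zero] at hfac
    exact hne hfac
  have hord : P.ord (t / s - algebraMap K F c) = P.ord (t - c • s) + D P := by
    rw [hfac, P.ord_mul hs hne2, hsP]
    ring
  refine ⟨P, ⟨c, by omega⟩, ?_⟩
  have hx0 : 0 ≤ P.ord (t / s) := by
    rw [ord_div P ht hs]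
    omega
  exact (ev_eq_iff P hx0 c).2 (Or.inr (by omega))

end Fermat.Agent.MW.Geo
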