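import Fermat.Agent.MW.Geo.Pencil

/-!
# MW / GEO : the closedness criterion  `codim (W L(B)) ≥ e ⟺ W = L(D - E)`, `deg E = e`.
-/

set_option autoImplicit false

namespace Fermat.Agent.MW.Geo

open AlgebraicCurve Fermat.Agent.Lib.RR Fermat.Agent.GAL.RED

variable {K F : Type*} [Field K] [Field F] [Algebra K F] [IsFF K F] [IsAlgClosed K]

/-- `ℓ(D) = deg D + 1 - g` for `deg D ≥ 2g - 1`. -/
theorem finrank_L (D : Divisor K F) (h : 2 * (genusFF K F : ℤ) - 1 ≤ Divisor.degree D) :
    (Module.finrank K (riemannRochSpace D) : ℤ) = Divisor.degree D + 1 - genusFF K F :=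
  ell_eq_of_lt_degree' (by omega)

/-- `L(D - E) L(B) = L(D + B - E)`. -/
theorem L_sub_mul_L (D B E : Divisor K F)
    (hD : 2 * (genusFF K F : ℤ) ≤ Divisor.degree D - Divisor.degree E)
    (hB : 2 * (genusFF K F : ℤ) - 1 ≤ Divisor.degree B - (Divisor.degree D - Divisor.degree E)) :
    riemannRochSpace (D - E) * riemannRochSpace B = riemannRochSpace (D + B - E) := by
  rw [L_mul_L (D - E) B (by rw [map_sub]; exact hD) (by rw [map_sub]; exact hB)]
  congr 1
  abel

/-- `L(D - E) L(D' - E') = L(D + D' - (E + E'))`. -/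
theorem L_sub_mul_L_sub (D D' E E' : Divisor K F)
    (hD : 2 * (genusFF K F : ℤ) ≤ Divisor.degree D - Divisor.degree E)
    (hD' : 2 * (genusFF K F : ℤ) - 1 ≤
      (Divisor.degree D' - Divisor.degree E') - (Divisor.degree D - Divisor.degree E)) :
    riemannRochSpace (D - E) * riemannRochSpace (D' - E') =
      riemannRochSpace (D + D' - (E + E')) := by
  rw [L_mul_L (D - E) (D' - E') (by rw [map_sub]; exact hD) (by rw [map_sub, map_sub]; exact hD')]
  congr 1
  abel

/-- **Closedness criterion.** -/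
theorem eq_L_of_finrank_mul_le (D B : Divisor K F) (e : ℕ) (W : Submodule K F)
    (hW : W ≤ riemannRochSpace D)
    (hdim : (Module.finrank K W : ℤ) = Divisor.degree D + 1 - genusFF K F - e)
    (hD : (e : ℤ) + 3 * genusFF K F ≤ Divisor.degree D)
    (hB : Divisor.degree D + 2 * genusFF K F - 1 ≤ Divisor.degree B)
    (hrank : (Module.finrank K (W * riemannRochSpace B : Submodule K F) : ℤ) ≤
      Divisor.degree D + Divisor.degree B + 1 - genusFF K F - e) :
    ∃ E : Divisor K F, 0 ≤ E ∧ Divisor.degree E = e ∧ W = riemannRochSpace (D - E) := by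
  have hfinW : Module.Finite K W := Submodule.finiteDimensional_of_le hW
  have hW0 : W ≠ ⊥ := by
    rintro rfl
    rw [finrank_bot] at hdim
    push_cast at hdim
    omega
  obtain ⟨D', s₁, s₂, hs₁, hs₂, hs₁0, hs₂0, hWD', hmin⟩ := exists_pair W hW0
  have hle : D' ≤ D := by
    intro P
    have a1 := ((mem_riemannRochSpace_iff.1 (hW hs₁)) P).resolve_left hs₁0
    have a2 := ((mem_riemannRochSpace_iff.1 (hW hs₂)) P).resolve_left hs₂0
    have := hmin P
    omega
  have hdle : Divisor.degree D' ≤ Divisor.degree D := degree_mono hle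
  have hD'0 : 0 ≤ Divisor.degree D' := degree_nonneg_of_mem hs₁0 (hWD' hs₁)
  have h1 : Module.finrank K W ≤ ell D' := Submodule.finrank_mono hWD'
  have h2 := ell_le_degree_add hD'0
  rw [ell_zero] at h2
  have h3 : 2 * (genusFF K F : ℤ) ≤ Divisor.degree D' := by
    push_cast at h2
    omega
  have h4 := finrank_L D' (by omega)
  have h5 : riemannRochSpace (D' + B) ≤ W * riemannRochSpace B := by
    intro w hw
    obtain ⟨t₁, ht₁, t₂, ht₂, rfl⟩ := pencil D' B s₁ s₂ hs₁0 hs₂0 hmin (by omega) w hw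
    exact Submodule.add_mem _ (Submodule.mul_mem_mul hs₁ ht₁) (Submodule.mul_mem_mul hs₂ ht₂)
  have hfin2 : Module.Finite K (W * riemannRochSpace B : Submodule K F) :=
    Submodule.finiteDimensional_of_le
      ((mul_le_mul' hW le_rfl).trans (FLAT.Geo.L_mul_L_le D B))
  have h6 := Submodule.finrank_mono h5
  have h7 := finrank_L (D' + B) (by rw [map_add]; omega)
  rw [map_add] at h7
  have hdeg : Divisor.degree D' = Divisor.degree D - e := by
    unfold ell at h1
    omega
  refine ⟨D - D', sub_nonneg.2 hle, by rw [map_sub, hdeg]; ring, ?_⟩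
  rw [sub_sub_cancel]
  apply Submodule.eq_of_le_of_finrank_le hWD'
  omega

end Fermat.Agent.MW.Geo
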