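import Fermat.Agent.MW.Geo.Closed
import Fermat.Agent.Lib.PlaceEval

/-!
# MW / GEO : evaluation functionals on `L(D)`

For a finite set `T` of places and local trivialisations `u Q` (`ord_Q (u Q) = D Q`, `u Q ≠ 0`;
e.g. `u Q = 1` if `D Q = 0`), the functionals `f ↦ ev Q (u Q * f)`, `Q ∈ T`, on `L(D)`
* cut out `L(D - ∑_{Q ∈ T} Q)`  (`mem_L_sub_sumPt_iff`);
* are linearly independent if `deg D ≥ |T| + 2g - 1`  (`exists_ev_eq`).
-/

set_option autoImplicit false

namespace Fermat.Agent.MW.Geo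

open AlgebraicCurve Fermat.Agent.Lib.RR Fermat.Agent.GAL.RED Fermat.Agent.Lib.PlaceEval

variable {K F : Type*} [Field K] [Field F] [Algebra K F]

/-- the reduced divisor `∑_{Q ∈ T} Q`. -/
noncomputable def sumPt (T : Finset (Place K F)) : Divisor K F := ∑ Q ∈ T, pt Q

open Classical in
theorem sumPt_apply (T : Finset (Place K F)) (P : Place K F) :
    sumPt T P = if P ∈ T then 1 else 0 := by
  unfold sumPt
  rw [Finsupp.finset_sum_apply]
  simp only [pt, Finsupp.single_apply]
  rw [Finset.sum_ite_eq']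

theorem sumPt_nonneg (T : Finset (Place K F)) : 0 ≤ sumPt T := by
  classical
  intro P
  rw [sumPt_apply]
  split_ifs <;> simp

theorem sumPt_le_one (T : Finset (Place K F)) (P : Place K F) : sumPt T P ≤ 1 := by
  classical
  rw [sumPt_apply]
  split_ifs <;> simp

variable [IsFF K F] [IsAlgClosed K]

theorem degree_sumPt (T : Finset (Place K F)) : Divisor.degree (sumPt T) = T.card := by
  unfold sumPt
  rw [map_sum]
  simp [degree_pt, deg_eq_one]

omit [IsFF K F] [IsAlgClosed K] in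
theorem ord_mul_nonneg {D : Divisor K F} {f u : F} {Q : Place K F} (hf : f ∈ riemannRochSpace D)
    (hu : Q.ord u = D Q) : 0 ≤ Q.ord (u * f) := by
  rcases eq_or_ne f 0 with rfl | hf0
  · simp
  rcases eq_or_ne u 0 with rfl | hu0
  · simp
  have := ((mem_riemannRochSpace_iff.1 hf) Q).resolve_left hf0
  rw [Q.ord_mul hu0 hf0]
  omega

/-- `L(D - ∑_T Q)` is cut out of `L(D)` by the evaluations at the places of `T`. -/
theorem mem_L_sub_sumPt_iff (D : Divisor K F) (T : Finset (Place K F)) (u : Place K F → F)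
    (hu : ∀ Q ∈ T, Q.ord (u Q) = D Q) (hu0 : ∀ Q ∈ T, u Q ≠ 0) (f : F) :
    f ∈ riemannRochSpace (D - sumPt T) ↔
      f ∈ riemannRochSpace D ∧ ∀ Q ∈ T, ev Q (u Q * f) = 0 := by
  classical
  rcases eq_or_ne f 0 with rfl | hf0
  · simp
  constructor
  · intro h
    refine ⟨L_mono (sub_le_self _ (sumPt_nonneg T)) h, fun Q hQ => ?_⟩
    apply ev_eq_zero_of_pos
    have := ((mem_riemannRochSpace_iff.1 h) Q).resolve_left hf0
    rw [Finsupp.sub_apply, sumPt_apply, if_pos hQ] at this
    rw [Q.ord_mul (hu0 Q hQ) hf0, hu Q hQ]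
    omega
  · rintro ⟨h1, h2⟩
    rw [mem_riemannRochSpace_iff]
    intro P
    right
    have a := ((mem_riemannRochSpace_iff.1 h1) P).resolve_left hf0
    rw [Finsupp.sub_apply, sumPt_apply]
    split_ifs with hP
    · have h3 := (ev_eq_zero_iff P (ord_mul_nonneg h1 (hu P hP))).1 (h2 P hP)
      rcases h3 with h3 | h3
      · exact absurd h3 (mul_ne_zero (hu0 P hP) hf0)
      · rw [P.ord_mul (hu0 P hP) hf0, hu P hP] at h3
        omega
    · omega

/-- the evaluation map `L(D) → K^T`. -/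
noncomputable def evMap (D : Divisor K F) (T : Finset (Place K F)) (u : Place K F → F)
    (hu : ∀ Q ∈ T, Q.ord (u Q) = D Q) : riemannRochSpace D →ₗ[K] (T → K) where
  toFun f := fun Q => ev Q.1 (u Q.1 * f.1)
  map_add' f g := by
    funext Q
    show ev Q.1 (u Q.1 * (f.1 + g.1)) = _
    rw [mul_add, ev_add _ (ord_mul_nonneg f.2 (hu Q.1 Q.2)) (ord_mul_nonneg g.2 (hu Q.1 Q.2))]
    rfl
  map_smul' a f := by
    funext Q
    show ev Q.1 (u Q.1 * (a • f.1)) = _
    rw [mul_smul_comm, ev_smul]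
    rfl

theorem evMap_surjective (D : Divisor K F) (T : Finset (Place K F)) (u : Place K F → F)
    (hu : ∀ Q ∈ T, Q.ord (u Q) = D Q) (hu0 : ∀ Q ∈ T, u Q ≠ 0)
    (hdeg : (T.card : ℤ) + 2 * genusFF K F - 1 ≤ Divisor.degree D) :
    Function.Surjective (evMap D T u hu) := by
  rw [← LinearMap.range_eq_top]
  apply Submodule.eq_top_of_finrank_eq
  have h1 := LinearMap.finrank_range_add_finrank_ker (evMap D T u hu)
  have hker : LinearMap.ker (evMap D T u hu) =
      (riemannRochSpace (D - sumPt T)).comap (riemannRochSpace D).subtype := by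
    ext f
    rw [LinearMap.mem_ker, Submodule.mem_comap, Submodule.subtype_apply,
      mem_L_sub_sumPt_iff D T u hu hu0]
    constructor
    · intro h
      exact ⟨f.2, fun Q hQ => congrFun h ⟨Q, hQ⟩⟩
    · rintro ⟨-, h⟩
      funext Q
      exact h Q.1 Q.2
  have h2 : Module.finrank K (LinearMap.ker (evMap D T u hu)) =
      Module.finrank K (riemannRochSpace (D - sumPt T)) := by
    rw [hker]
    exact (Submodule.comapSubtypeEquivOfLe
      (L_mono (sub_le_self _ (sumPt_nonneg T)))).finrank_eq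
  have h3 := finrank_L D (by omega)
  have h4 := finrank_L (D - sumPt T) (by rw [map_sub, degree_sumPt]; omega)
  rw [map_sub, degree_sumPt] at h4
  rw [Module.finrank_fintype_fun_eq_card, Fintype.card_coe]
  omega

/-- **Independence of the evaluation functionals.** -/
theorem exists_ev_eq (D : Divisor K F) (T : Finset (Place K F)) (u : Place K F → F)
    (hu : ∀ Q ∈ T, Q.ord (u Q) = D Q) (hu0 : ∀ Q ∈ T, u Q ≠ 0)
    (hdeg : (T.card : ℤ) + 2 * genusFF K F - 1 ≤ Divisor.degree D) (c : Place K F → K) :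
    ∃ f ∈ riemannRochSpace D, ∀ Q ∈ T, ev Q (u Q * f) = c Q := by
  obtain ⟨f, hf⟩ := evMap_surjective D T u hu hu0 hdeg (fun Q => c Q.1)
  exact ⟨f.1, f.2, fun Q hQ => congrFun hf ⟨Q, hQ⟩⟩

/-- `f L(D) = L(D - div f)`, elementwise. -/
theorem mem_L_sub_divOf_iff {l : F} (hl : l ≠ 0) (D : Divisor K F) (w : F) :
    w ∈ riemannRochSpace (D - divOf l) ↔ ∃ t ∈ riemannRochSpace D, w = l * t := by
  rw [← FLAT.Geo.span_singleton_mul_L hl D]
  constructor
  · intro h
    obtain ⟨t, ht, rfl⟩ := Submodule.mem_span_singleton_mul.1 h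
    exact ⟨t, ht, rfl⟩
  · rintro ⟨t, ht, rfl⟩
    exact Submodule.mul_mem_mul (Submodule.mem_span_singleton_self l) ht

end Fermat.Agent.MW.Geo
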