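import Fermat.Agent.FLAT.Geo.JacMul
import Fermat.Agent.S37.BPF

/-!
# MW / GEO : the base point free pencil trick on `Lib/RR`

`K` algebraically closed, `F / K` a function field (`IsFF`), `g = genusFF K F`.

* `Geo.pencil` : `s₁ L(B) + s₂ L(B) = L(A + B)` for a pencil `s₁, s₂` generating `A`, `deg B - deg A ≥ 2g - 1`;
* `Geo.exists_pair` : two elements of a finite dimensional space `W ≠ 0` generate its divisor;
* `Geo.L_mul_L` : `L(A) L(B) = L(A + B)` (from `FLAT.Geo.L_mul_L`);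
* `Geo.L_add_eq` : `V_{m + m₀} = V_m + u V_m`.
-/

set_option autoImplicit false

namespace Fermat.Agent.MW.Geo

open AlgebraicCurve Fermat.Agent.Lib.RR Fermat.Agent.GAL.RED

variable {K F : Type*} [Field K] [Field F] [Algebra K F] [IsFF K F] [IsAlgClosed K]

omit [IsAlgClosed K] in
theorem degree_nonneg_of_mem {A : Divisor K F} {s : F} (hs : s ≠ 0) (h : s ∈ riemannRochSpace A) :
    0 ≤ Divisor.degree A := by
  have h1 := (mem_L_iff.1 h).resolve_left hs
  have h2 := degree_nonneg h1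
  rwa [map_add, degree_divOf, zero_add] at h2

omit [IsFF K F] [IsAlgClosed K] in
theorem mem_L_of_min {A : Divisor K F} {s₁ s₂ : F}
    (hmin : ∀ P : Place K F, min (P.ord s₁) (P.ord s₂) = - A P) :
    s₁ ∈ riemannRochSpace A ∧ s₂ ∈ riemannRochSpace A := by
  constructor <;> rw [mem_riemannRochSpace_iff] <;> intro P <;> right <;> rw [← hmin P]
  · exact min_le_left _ _
  · exact min_le_right _ _

/-- **Base point free pencil trick** (elementwise form). -/
theorem pencil (A B : Divisor K F) (s₁ s₂ : F) (hs₁0 : s₁ ≠ 0) (hs₂0 : s₂ ≠ 0)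
    (hmin : ∀ P : Place K F, min (P.ord s₁) (P.ord s₂) = - A P)
    (hdeg : 2 * (genusFF K F : ℤ) - 1 ≤ Divisor.degree B - Divisor.degree A)
    (w : F) (hw : w ∈ riemannRochSpace (A + B)) :
    ∃ t₁ ∈ riemannRochSpace B, ∃ t₂ ∈ riemannRochSpace B, w = s₁ * t₁ + s₂ * t₂ := by
  obtain ⟨hs₁, hs₂⟩ := mem_L_of_min hmin
  have hA0 : 0 ≤ Divisor.degree A := degree_nonneg_of_mem hs₁0 hs₁
  let φ : (riemannRochSpace B × riemannRochSpace B) →ₗ[K] F :=
    ((LinearMap.mulRight K s₁).comp (riemannRochSpace B).subtype).coprod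
      ((LinearMap.mulRight K s₂).comp (riemannRochSpace B).subtype)
  have hφ : ∀ x, φ x = x.1.1 * s₁ + x.2.1 * s₂ := fun x => by
    simp [φ, LinearMap.coprod_apply]
  have hrange2 : LinearMap.range φ ≤ riemannRochSpace (B + A) := by
    rintro _ ⟨x, rfl⟩
    rw [hφ]
    exact Submodule.add_mem _ (FLAT.Geo.JacMul_mul_mem x.1.2 hs₁) (FLAT.Geo.JacMul_mul_mem x.2.2 hs₂)
  have hker : ∀ x ∈ LinearMap.ker φ, x.1.1 * s₂⁻¹ ∈ riemannRochSpace (B - A) := by
    intro x hx
    rw [LinearMap.mem_ker, hφ] at hx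
    rw [mem_riemannRochSpace_iff]
    intro P
    rcases eq_or_ne x.1.1 0 with ha | ha
    · left; rw [ha, zero_mul]
    right
    have hb : x.2.1 ≠ 0 := by
      intro hb
      rw [hb, zero_mul, add_zero] at hx
      exact (mul_ne_zero ha hs₁0) hx
    have e1 : x.1.1 * s₁ = -(x.2.1 * s₂) := eq_neg_of_add_eq_zero_left hx
    have e2 : P.ord x.1.1 + P.ord s₁ = P.ord x.2.1 + P.ord s₂ := by
      rw [← P.ord_mul ha hs₁0, e1, ord_neg, P.ord_mul hb hs₂0]
    have ha' := ((mem_riemannRochSpace_iff.1 x.1.2) P).resolve_left ha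
    have hb' := ((mem_riemannRochSpace_iff.1 x.2.2) P).resolve_left hb
    have hm := hmin P
    rw [P.ord_mul ha (inv_ne_zero hs₂0), P.ord_inv, Finsupp.sub_apply]
    rcases min_choice (P.ord s₁) (P.ord s₂) with h | h <;> rw [h] at hm <;> omega
  let ψ : LinearMap.ker φ →ₗ[K] riemannRochSpace (B - A) :=
    LinearMap.codRestrict _
      (((LinearMap.mulRight K s₂⁻¹).comp (riemannRochSpace B).subtype).comp
        ((LinearMap.fst K _ _).comp (LinearMap.ker φ).subtype))
      (fun x => hker x.1 x.2)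
  have hψ : Function.Injective ψ := by
    intro x y hxy
    have h1 : x.1.1.1 * s₂⁻¹ = y.1.1.1 * s₂⁻¹ := congrArg Subtype.val hxy
    have ha : x.1.1.1 = y.1.1.1 := mul_right_cancel₀ (inv_ne_zero hs₂0) h1
    have hx2 := x.2
    have hy2 := y.2
    rw [LinearMap.mem_ker, hφ] at hx2 hy2
    have hb : x.1.2.1 = y.1.2.1 := by
      apply mul_right_cancel₀ hs₂0
      rw [ha] at hx2
      exact add_left_cancel (hx2.trans hy2.symm)
    apply Subtype.ext
    exact Prod.ext (Subtype.ext ha) (Subtype.ext hb)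
  have hk : Module.finrank K (LinearMap.ker φ) ≤ ell (B - A) :=
    LinearMap.finrank_le_finrank_of_injective hψ
  have hrn := LinearMap.finrank_range_add_finrank_ker φ
  rw [Module.finrank_prod] at hrn
  have e1 := ell_eq_of_lt_degree' (D := B) (by omega)
  have e2 := ell_eq_of_lt_degree' (D := B - A) (by rw [map_sub]; omega)
  have e3 := ell_eq_of_lt_degree' (D := B + A) (by rw [map_add]; omega)
  rw [map_sub] at e2
  rw [map_add] at e3
  have hfin : Module.finrank K (riemannRochSpace (B + A)) ≤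
      Module.finrank K (LinearMap.range φ) := by
    unfold ell at *
    omega
  have heq := Submodule.eq_of_le_of_finrank_le hrange2 hfin
  rw [add_comm, ← heq] at hw
  obtain ⟨x, rfl⟩ := hw
  exact ⟨x.1.1, x.1.2, x.2.1, x.2.2, by rw [hφ]; ring⟩

/-- Two elements of a finite dimensional space `W ≠ 0` of functions generate its divisor. -/
theorem exists_pair (W : Submodule K F) [Module.Finite K W] (hW : W ≠ ⊥) :
    ∃ (D : Divisor K F) (s₁ s₂ : F), s₁ ∈ W ∧ s₂ ∈ W ∧ s₁ ≠ 0 ∧ s₂ ≠ 0 ∧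
      W ≤ riemannRochSpace D ∧ ∀ P : Place K F, min (P.ord s₁) (P.ord s₂) = - D P := by
  classical
  obtain ⟨D, hWD, hgen⟩ := exists_genDiv W hW
  obtain ⟨s₁, hs₁, hs₁0, -⟩ := hgen ∅
  obtain ⟨s₂, hs₂, hs₂0, h2⟩ := hgen (divOf (K := K) s₁ + D).support
  refine ⟨D, s₁, s₂, hs₁, hs₂, hs₁0, hs₂0, hWD, fun P => ?_⟩
  have a1 := ((mem_riemannRochSpace_iff.1 (hWD hs₁)) P).resolve_left hs₁0
  have a2 := ((mem_riemannRochSpace_iff.1 (hWD hs₂)) P).resolve_left hs₂0
  by_cases hP : P ∈ (divOf (K := K) s₁ + D).support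
  · have := h2 P hP
    omega
  · have h3 : (divOf (K := K) s₁ + D) P = 0 := by simpa using hP
    rw [Finsupp.add_apply, divOf_apply] at h3
    omega

/-- `L(A) L(B) = L(A + B)` if `deg A ≥ 2g`, `deg B ≥ deg A + 2g - 1`. -/
theorem L_mul_L (A B : Divisor K F) (hA : 2 * (genusFF K F : ℤ) ≤ Divisor.degree A)
    (hdeg : 2 * (genusFF K F : ℤ) - 1 ≤ Divisor.degree B - Divisor.degree A) :
    riemannRochSpace A * riemannRochSpace B = riemannRochSpace (A + B) := by
  rw [mul_comm, add_comm]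
  exact FLAT.Geo.L_mul_L hA hdeg

/-- `V_{m + m₀} = V_m + u V_m` (pencil `1, u`). -/
theorem L_add_eq (oo : Place K F) (u : F) (m₀ m : ℕ) (hu₀ : oo.ord u = - (m₀ : ℤ)) (hu0 : u ≠ 0)
    (hu : ∀ P : Place K F, P ≠ oo → 0 ≤ P.ord u) (hm : m₀ + 2 * genusFF K F ≤ m + 1)
    (w : F) (hw : w ∈ riemannRochSpace (Finsupp.single oo ((m + m₀ : ℕ) : ℤ))) :
    ∃ t₁ ∈ riemannRochSpace (Finsupp.single oo (m : ℤ)),
      ∃ t₂ ∈ riemannRochSpace (Finsupp.single oo (m : ℤ)), w = t₁ + u * t₂ := by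
  classical
  have key := pencil (Finsupp.single oo (m₀ : ℤ)) (Finsupp.single oo (m : ℤ)) 1 u one_ne_zero hu0
    (fun P => by
      rcases eq_or_ne P oo with rfl | hP
      · rw [Finsupp.single_eq_same, hu₀, Place.ord_one]
        omega
      · rw [Finsupp.single_eq_of_ne hP, Place.ord_one]
        have := hu P hP
        omega)
    (by
      rw [Divisor.degree_single, Divisor.degree_single, deg_eq_one]
      push_cast
      omega) w
    (by
      rw [← Finsupp.single_add]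
      have e : (m₀ : ℤ) + (m : ℤ) = ((m + m₀ : ℕ) : ℤ) := by push_cast; ring
      rw [e]
      exact hw)
  obtain ⟨t₁, h1, t₂, h2, rfl⟩ := key
  exact ⟨t₁, h1, t₂, h2, by rw [one_mul]⟩

end Fermat.Agent.MW.Geo
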