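import Fermat.Agent.MW.Geo.Bertini
import Fermat.Agent.MW.Defs

/-!
# MW / GEO : the results of `MW/Geo/*` for the spaces `S.V n = L(n ∞)`, `S.W n Z = L(n ∞ - Z)`.
-/

set_option autoImplicit false

namespace Fermat.Agent.MW

open AlgebraicCurve Fermat.Agent.Lib.RR Fermat.Agent.GAL.RED Fermat.Agent.Lib.PlaceEval

variable {F : Type*} [Field F] [Algebra Qb F]

namespace Setup

variable (S : Setup F)

theorem W_zero (n : ℕ) : S.W n 0 = S.V n := by
  unfold W V
  rw [sub_zero]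

theorem W_le_V (n : ℕ) {Z : Divisor Qb F} (hZ : 0 ≤ Z) : S.W n Z ≤ S.V n :=
  L_mono (sub_le_self _ hZ)

theorem W_anti (n : ℕ) {Z Z' : Divisor Qb F} (h : Z ≤ Z') : S.W n Z' ≤ S.W n Z :=
  L_mono (sub_le_sub_left h _)

theorem V_mono {n n' : ℕ} (h : n ≤ n') : S.V n ≤ S.V n' := by
  classical
  apply L_mono
  intro P
  rw [Finsupp.single_apply, Finsupp.single_apply]
  split_ifs
  · exact_mod_cast h
  · exact le_rfl

variable [IsFF Qb F]

theorem degree_inf (n : ℕ) : Divisor.degree (Finsupp.single S.inf (n : ℤ)) = n := by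
  rw [Divisor.degree_single, deg_eq_one]
  simp

theorem single_add (n n' : ℕ) :
    (Finsupp.single S.inf (n : ℤ) + Finsupp.single S.inf (n' : ℤ) : Divisor Qb F) =
      Finsupp.single S.inf ((n + n' : ℕ) : ℤ) := by
  rw [← Finsupp.single_add]
  push_cast
  rfl

theorem finrank_V (n : ℕ) (h : 2 * S.g ≤ n + 1) :
    (Module.finrank Qb (S.V n) : ℤ) = n + 1 - S.g := by
  have := Geo.finrank_L (Finsupp.single S.inf (n : ℤ)) (by
    rw [S.degree_inf]; unfold g at h; omega)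
  rw [S.degree_inf] at this
  exact this

theorem finrank_W (n : ℕ) (Z : Divisor Qb F) (h : 2 * (S.g : ℤ) - 1 ≤ n - Divisor.degree Z) :
    (Module.finrank Qb (S.W n Z) : ℤ) = n - Divisor.degree Z + 1 - S.g := by
  have := Geo.finrank_L (Finsupp.single S.inf (n : ℤ) - Z) (by
    rw [map_sub, S.degree_inf]; exact h)
  rw [map_sub, S.degree_inf] at this
  exact this

/-- `W_n(Z) W_n'(Z') = W_{n + n'}(Z + Z')`. -/
theorem W_mul_W (n n' : ℕ) (Z Z' : Divisor Qb F)
    (h : 2 * (S.g : ℤ) ≤ n - Divisor.degree Z)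
    (h' : 2 * (S.g : ℤ) - 1 ≤ (n' - Divisor.degree Z') - (n - Divisor.degree Z)) :
    S.W n Z * S.W n' Z' = S.W (n + n') (Z + Z') := by
  unfold W
  rw [Geo.L_sub_mul_L_sub _ _ _ _ (by rw [S.degree_inf]; exact h)
    (by rw [S.degree_inf, S.degree_inf]; exact h'), S.single_add]

theorem W_mul_W_le (n n' : ℕ) (Z Z' : Divisor Qb F) :
    S.W n Z * S.W n' Z' ≤ S.W (n + n') (Z + Z') := by
  unfold W
  refine (FLAT.Geo.L_mul_L_le _ _).trans (le_of_eq ?_)
  rw [← S.single_add]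
  congr 1
  abel

/-- `W_n(Z) V_n' = W_{n + n'}(Z)`. -/
theorem W_mul_V (n n' : ℕ) (Z : Divisor Qb F)
    (h : 2 * (S.g : ℤ) ≤ n - Divisor.degree Z)
    (h' : 2 * (S.g : ℤ) - 1 ≤ n' - (n - Divisor.degree Z)) :
    S.W n Z * S.V n' = S.W (n + n') Z := by
  have := S.W_mul_W n n' Z 0 h (by rw [map_zero, sub_zero]; exact h')
  rwa [W_zero, add_zero] at this

/-- `V_n V_n' = V_{n + n'}`. -/
theorem V_mul_V (n n' : ℕ) (h : 2 * S.g ≤ n) (h' : n + 2 * S.g ≤ n' + 1) :
    S.V n * S.V n' = S.V (n + n') := by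
  have := S.W_mul_V n n' 0 (by rw [map_zero]; omega) (by rw [map_zero]; omega)
  rwa [W_zero, W_zero] at this

theorem V_mul_V_le (n n' : ℕ) : S.V n * S.V n' ≤ S.V (n + n') := by
  have := S.W_mul_W_le n n' 0 0
  rwa [W_zero, W_zero, add_zero, W_zero] at this

/-- **(K1) closedness criterion.** -/
theorem exists_eq_W (n n₂ d : ℕ) (W : Submodule Qb F) (hW : W ≤ S.V n)
    (hdim : (Module.finrank Qb W : ℤ) = n + 1 - S.g - d)
    (hn : d + 3 * S.g ≤ n) (hn₂ : n + 2 * S.g ≤ n₂ + 1)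
    (hrank : (Module.finrank Qb (W * S.V n₂ : Submodule Qb F) : ℤ) ≤ n + n₂ + 1 - S.g - d) :
    ∃ Z : Divisor Qb F, 0 ≤ Z ∧ Divisor.degree Z = d ∧ W = S.W n Z := by
  unfold g at *
  exact Geo.eq_L_of_finrank_mul_le (Finsupp.single S.inf (n : ℤ)) (Finsupp.single S.inf (n₂ : ℤ)) d W
    hW (by rw [S.degree_inf]; exact hdim) (by rw [S.degree_inf]; omega)
    (by rw [S.degree_inf, S.degree_inf]; omega)
    (by rw [S.degree_inf, S.degree_inf]; exact hrank)

/-- **(C2)** `L(N ∞ - (div l + n ∞)) = l V_{N - n}`. -/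
theorem W_divOf (n m : ℕ) {l : F} (hl : l ≠ 0) :
    S.W (n + m) (divOf l + Finsupp.single S.inf (n : ℤ)) = Submodule.span Qb {l} * S.V m := by
  unfold W V
  rw [FLAT.Geo.span_singleton_mul_L hl, ← S.single_add]
  congr 1
  abel

/-- the local trivialisation of `O(n ∞)` used in `Coord.X`. -/
noncomputable def triv (n : ℕ) (Q : Place Qb F) : F := by
  classical exact if Q = S.inf then S.unif ^ n else 1

theorem triv_ne_zero (n : ℕ) (Q : Place Qb F) : S.triv n Q ≠ 0 := by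
  unfold triv
  split_ifs
  · apply pow_ne_zero
    intro h
    have := S.unif_ord
    rw [h] at this
    simp at this
  · exact one_ne_zero

theorem ord_triv (n : ℕ) (Q : Place Qb F) :
    Q.ord (S.triv n Q) = (Finsupp.single S.inf (n : ℤ) : Divisor Qb F) Q := by
  classical
  unfold triv
  split_ifs with h
  · subst h
    rw [ord_pow, S.unif_ord, Finsupp.single_eq_same, mul_one]
  · rw [Finsupp.single_eq_of_ne h, Place.ord_one]

/-- **(C3)** `W_n(∑_T Q)` is cut out of `V_n` by the evaluations. -/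
theorem mem_W_sumPt_iff (n : ℕ) (T : Finset (Place Qb F)) (f : F) :
    f ∈ S.W n (Geo.sumPt T) ↔ f ∈ S.V n ∧ ∀ Q ∈ T, ev Q (S.triv n Q * f) = 0 :=
  Geo.mem_L_sub_sumPt_iff _ T (S.triv n) (fun Q _ => S.ord_triv n Q)
    (fun Q _ => S.triv_ne_zero n Q) f

/-- **(C3)** the evaluation functionals at distinct places are independent on `V_n`. -/
theorem exists_ev_eq (n : ℕ) (T : Finset (Place Qb F)) (hn : T.card + 2 * S.g ≤ n + 1)
    (c : Place Qb F → Qb) : ∃ f ∈ S.V n, ∀ Q ∈ T, ev Q (S.triv n Q * f) = c Q :=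
  Geo.exists_ev_eq _ T (S.triv n) (fun Q _ => S.ord_triv n Q)
    (fun Q _ => S.triv_ne_zero n Q) (by rw [S.degree_inf]; unfold g at hn; omega) c

end Setup

/-- `Φ.X n Q i = ev Q (triv n Q * φ n i)`. -/
theorem Coord.X_eq [IsFF Qb F] {S : Setup F} (Φ : Coord S) (n : ℕ) (Q : Place Qb F)
    (i : Fin (Φ.M n)) : Φ.X n Q i = ev Q (S.triv n Q * Φ.φ n i) := by
  unfold Coord.X Setup.triv
  split_ifs
  · rfl
  · rw [one_mul]

end Fermat.Agent.MW
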